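import Mathlib

set_option autoImplicit false

/-!
# S48 (P2), seat QEXP (helper7): the Lambert series of a bounded sequence  (pure Mathlib)

For `‖f m‖ ≤ 1` and `‖q‖ < 1`:
`∑_{d ≥ 1} f d · q^d / (1 - q^d) = ∑_{n ≥ 1} (∑_{d ∣ n} f d) qⁿ`  (both sides summable).
-/

noncomputable section

open Filter Topology

namespace Fermat.Agent.S48.Eis1

/-- the double series `∑_{d, c ≥ 1} f d q^{dc}` is summable. -/
theorem lam_summable_prod (f : ℕ → ℂ) (hf : ∀ m, ‖f m‖ ≤ 1) {q : ℂ} (hq : ‖q‖ < 1) :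
    Summable fun c : ℕ+ × ℕ+ => f c.1 * q ^ ((c.1 : ℕ) * (c.2 : ℕ)) := by
  have hr : ‖(‖q‖ : ℝ)‖ < 1 := by rwa [norm_norm]
  have h0 := summable_prod_mul_pow (𝕜 := ℝ) 0 hr
  refine Summable.of_norm_bounded (g := fun c : ℕ+ × ℕ+ => ‖q‖ ^ ((c.1 : ℕ) * (c.2 : ℕ))) ?_ ?_
  · refine h0.congr fun c => ?_
    simp
  · intro c
    rw [norm_mul, norm_pow]
    calc ‖f c.1‖ * ‖q‖ ^ ((c.1 : ℕ) * (c.2 : ℕ)) ≤ 1 * ‖q‖ ^ ((c.1 : ℕ) * (c.2 : ℕ)) :=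
          mul_le_mul_of_nonneg_right (hf _) (by positivity)
      _ = ‖q‖ ^ ((c.1 : ℕ) * (c.2 : ℕ)) := one_mul _

/-- the geometric series `∑_{c ≥ 1} ξ^c = ξ / (1 - ξ)`. -/
theorem lam_hasSum_geometric {ξ : ℂ} (hξ : ‖ξ‖ < 1) :
    HasSum (fun c : ℕ+ => ξ ^ (c : ℕ)) (ξ / (1 - ξ)) := by
  have h1 := (hasSum_geometric_of_norm_lt_one hξ).mul_left ξ
  have h2 : HasSum (fun n : ℕ => ξ ^ (n + 1)) (ξ / (1 - ξ)) := by
    rw [div_eq_mul_inv]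
    have e : (fun n : ℕ => ξ ^ (n + 1)) = fun n : ℕ => ξ * ξ ^ n := by
      funext n
      rw [pow_succ']
    rw [e]
    exact h1
  exact (hasSum_pnat_iff_hasSum_succ (f := fun n : ℕ => ξ ^ n)).mpr h2

/-- **the Lambert series**, first form: `∑_d f d q^d/(1 - q^d)` is the sum of the double series. -/
theorem lam_hasSum_fst (f : ℕ → ℂ) (hf : ∀ m, ‖f m‖ ≤ 1) {q : ℂ} (hq : ‖q‖ < 1) :
    HasSum (fun d : ℕ+ => f d * (q ^ (d : ℕ) / (1 - q ^ (d : ℕ))))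
      (∑' c : ℕ+ × ℕ+, f c.1 * q ^ ((c.1 : ℕ) * (c.2 : ℕ))) := by
  refine (lam_summable_prod f hf hq).hasSum.prod_fiberwise fun d => ?_
  have hd : ‖q ^ (d : ℕ)‖ < 1 := by
    rw [norm_pow]
    exact pow_lt_one₀ (norm_nonneg _) hq d.ne_zero
  have h := (lam_hasSum_geometric hd).mul_left (f d)
  have e : (fun c : ℕ+ => f d * q ^ ((d : ℕ) * (c : ℕ)))
      = fun c : ℕ+ => f d * (q ^ (d : ℕ)) ^ (c : ℕ) := by
    funext c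
    rw [pow_mul]
  show HasSum (fun c : ℕ+ => f d * q ^ ((d : ℕ) * (c : ℕ))) _
  rw [e]
  exact h

/-- **the Lambert series**, second form: `∑_n (∑_{d ∣ n} f d) qⁿ` is the sum of the double
series. -/
theorem lam_hasSum_snd (f : ℕ → ℂ) (hf : ∀ m, ‖f m‖ ≤ 1) {q : ℂ} (hq : ‖q‖ < 1) :
    HasSum (fun n : ℕ+ => (∑ d ∈ (n : ℕ).divisors, f d) * q ^ (n : ℕ))
      (∑' c : ℕ+ × ℕ+, f c.1 * q ^ ((c.1 : ℕ) * (c.2 : ℕ))) := by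
  have h1 := (sigmaAntidiagonalEquivProd.hasSum_iff
    (f := fun c : ℕ+ × ℕ+ => f c.1 * q ^ ((c.1 : ℕ) * (c.2 : ℕ)))).mpr
    (lam_summable_prod f hf hq).hasSum
  refine h1.sigma fun n => ?_
  have h2 : (∑ d ∈ (n : ℕ).divisors, f d) * q ^ (n : ℕ)
      = ∑ x : (n : ℕ).divisorsAntidiagonal,
          ((fun c : ℕ+ × ℕ+ => f c.1 * q ^ ((c.1 : ℕ) * (c.2 : ℕ))) ∘ sigmaAntidiagonalEquivProd)
            ⟨n, x⟩ := by
    have e1 : ∀ x : (n : ℕ).divisorsAntidiagonal,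
        ((fun c : ℕ+ × ℕ+ => f c.1 * q ^ ((c.1 : ℕ) * (c.2 : ℕ))) ∘ sigmaAntidiagonalEquivProd)
            ⟨n, x⟩ = f x.1.1 * q ^ (x.1.1 * x.1.2) := fun x => rfl
    simp only [e1]
    rw [Finset.univ_eq_attach,
      (n : ℕ).divisorsAntidiagonal.sum_attach (fun x : ℕ × ℕ => f x.1 * q ^ (x.1 * x.2)),
      Nat.sum_divisorsAntidiagonal (fun d c => f d * q ^ (d * c)), Finset.sum_mul]
    refine Finset.sum_congr rfl fun d hd => ?_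
    rw [Nat.mul_div_cancel' (Nat.dvd_of_mem_divisors hd)]
  rw [h2]
  exact hasSum_fintype _

/-- **the Lambert series**: `∑_{d ≥ 1} f d q^d/(1 - q^d) = ∑_{n ≥ 1} (∑_{d ∣ n} f d) qⁿ`. -/
theorem lam_hasSum (f : ℕ → ℂ) (hf : ∀ m, ‖f m‖ ≤ 1) {q : ℂ} (hq : ‖q‖ < 1) :
    HasSum (fun n : ℕ+ => (∑ d ∈ (n : ℕ).divisors, f d) * q ^ (n : ℕ))
      (∑' d : ℕ+, f d * (q ^ (d : ℕ) / (1 - q ^ (d : ℕ)))) := by
  rw [(lam_hasSum_fst f hf hq).tsum_eq]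
  exact lam_hasSum_snd f hf hq

theorem lam_summable (f : ℕ → ℂ) (hf : ∀ m, ‖f m‖ ≤ 1) {q : ℂ} (hq : ‖q‖ < 1) :
    Summable fun d : ℕ+ => f d * (q ^ (d : ℕ) / (1 - q ^ (d : ℕ))) :=
  (lam_hasSum_fst f hf hq).summable

end Fermat.Agent.S48.Eis1
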